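/-
MAZ / T1B-U, brick U3'-MODEL (row 738), inputs (ii) + (iii) (helper22): RING-LEVEL REDUCTIONS.

The torus-kernel theorems (`MAZ/PicFin22/Torus`, `MAZ/PicFin75/TorusTorsion`) need, for the special
fibre `(A0, A1, A01)` of the nodal model over the (finite) residue field `κ` and its two components
`(X0, X1, X01)`, `(Y0, Y1, Y01)`:

 (iii) `ker (A_j → X_j) ⊓ ker (A_j → Y_j) = ⊥` on the three opens;
 (ii)  the node rings `A_j ⧸ (ker (A_j → X_j) ⊔ ker (A_j → Y_j))` are finite.

This file reduces them to what the model provides (`RedN3.NodalGood.inf0/inf1`, `Bal60.Comp`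
fields, `TwoChart.FiniteProjOverLine` of the components):

* `ker_inf_ker_eq_bot_of_inf`  : (iii) on a chart of the special fibre `R' = R/π` from the
  saturation property `P_X ∩ P_Y ⊆ π R` upstairs (`NodalGood.inf0`, `inf1`);
* `injective_algebraMap_of_away` : `C0 → C01` is injective for a domain chart of a two-chart ring
  with nontrivial overlap;
* `ker_inf_ker_eq_bot_overlap` : (iii) on the overlap from (iii) on the chart `0`
  (`A01 = A0[1/t]`, the component charts inject into their overlaps);
* `moduleFinite_quotient_ker_sup_ker`, `finite_quotient_ker_sup_ker` : (ii) from: the component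
  chart `X0` is a domain finite over `κ[t]`, `A0 → X0` is surjective, (iii) on the chart, and the other
  component is not everything (`ker (A0 → Y0) ≠ ⊥`).
-/
import Mathlib
import Fermat.Agent.Jac.Core
import Fermat.Agent.Jac.DegAdd79Alg

set_option autoImplicit false
set_option linter.unusedSectionVars false
set_option linter.style.haveILetI false

open Polynomial

namespace Fermat.Agent.MAZ.PicFinModel22

open Fermat.Agent.Jac

/-! ### (iii) on a chart, from the saturation property upstairs -/

/-- **(iii), chart form.**  `R → R'` a ring map killing `π` (the reduction modulo `π`), surjective;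
`gX : R' → X`, `gY : R' → Y` the two components, `P_X`, `P_Y` the kernels of the composites
`R → X`, `R → Y` (the vertical primes).  If `P_X ∩ P_Y ⊆ π R` (`NodalGood.inf0`), then
`ker gX ⊓ ker gY = ⊥`. -/
theorem ker_inf_ker_eq_bot_of_inf {R R' X Y : Type*} [CommRing R] [CommRing R'] [CommRing X]
    [CommRing Y] (f : R →+* R') (hf : Function.Surjective f) (gX : R' →+* X) (gY : R' →+* Y)
    (π : R) (hπ : f π = 0) (PX PY : Ideal R)
    (hX : ∀ x : R, gX (f x) = 0 → x ∈ PX) (hY : ∀ x : R, gY (f x) = 0 → x ∈ PY)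
    (hinf : ∀ x : R, x ∈ PX → x ∈ PY → ∃ y : R, x = π * y) :
    RingHom.ker gX ⊓ RingHom.ker gY = ⊥ := by
  rw [eq_bot_iff]
  rintro x' ⟨h1, h2⟩
  obtain ⟨x, rfl⟩ := hf x'
  obtain ⟨y, rfl⟩ := hinf x (hX x h1) (hY x h2)
  rw [Ideal.mem_bot, map_mul, hπ, zero_mul]

/-- The same with the `Fin 2`-indexed family of `RedN3.NodalGood`. -/
theorem ker_inf_ker_eq_bot_of_inf_fin2 {R R' X Y : Type*} [CommRing R] [CommRing R']
    [CommRing X] [CommRing Y] (f : R →+* R') (hf : Function.Surjective f) (gX : R' →+* X)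
    (gY : R' →+* Y) (π : R) (hπ : f π = 0) (P : Fin 2 → Ideal R)
    (hX : ∀ x : R, gX (f x) = 0 → x ∈ P 0) (hY : ∀ x : R, gY (f x) = 0 → x ∈ P 1)
    (hinf : ∀ x : R, (∀ i, x ∈ P i) → ∃ y : R, x = π * y) :
    RingHom.ker gX ⊓ RingHom.ker gY = ⊥ :=
  ker_inf_ker_eq_bot_of_inf f hf gX gY π hπ (P 0) (P 1) hX hY fun x h0 h1 =>
    hinf x (fun i => by
      fin_cases i
      · exact h0
      · exact h1)

/-! ### (iii) on the overlap -/

section Overlap

variable {K C0 C1 C01 : Type*} [CommRing K] [CommRing C0] [CommRing C1] [CommRing C01]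
  [Algebra C0 C01]

/-- A domain injects into its localisation away from an element when the latter is nontrivial. -/
theorem injective_algebraMap_of_away [IsDomain C0] [Nontrivial C01] (t : C0)
    [IsLocalization.Away t C01] : Function.Injective (algebraMap C0 C01) := by
  have ht : t ≠ 0 := by
    intro h
    have hu : IsUnit (algebraMap C0 C01 t) :=
      IsLocalization.map_units (M := Submonoid.powers t) C01 ⟨t, Submonoid.mem_powers _⟩
    rw [h, map_zero] at hu
    exact not_isUnit_zero hu
  refine IsLocalization.injective (M := Submonoid.powers t) C01 ?_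
  intro x hx
  obtain ⟨n, rfl⟩ := hx
  exact mem_nonZeroDivisors_of_ne_zero (pow_ne_zero n ht)

end Overlap

/-- **(iii), overlap form.**  `A01 = A0[1/t]`; the component charts `X0`, `Y0` inject into their
overlaps `X01`, `Y01`; the squares `A0 → X0 → X01`, `A0 → A01 → X01` commute.  Then (iii) on the
chart `0` implies (iii) on the overlap. -/
theorem ker_inf_ker_eq_bot_overlap {A0 A01 X0 X01 Y0 Y01 : Type*} [CommRing A0] [CommRing A01]
    [CommRing X0] [CommRing X01] [CommRing Y0] [CommRing Y01]
    [Algebra A0 A01] [Algebra X0 X01] [Algebra Y0 Y01] [Algebra A0 X0] [Algebra A01 X01]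
    [Algebra A0 Y0] [Algebra A01 Y01]
    (t : A0) [IsLocalization.Away t A01]
    (hX0 : (algebraMap X0 X01).comp (algebraMap A0 X0) =
      (algebraMap A01 X01).comp (algebraMap A0 A01))
    (hY0 : (algebraMap Y0 Y01).comp (algebraMap A0 Y0) =
      (algebraMap A01 Y01).comp (algebraMap A0 A01))
    (hiX : Function.Injective (algebraMap X0 X01)) (hiY : Function.Injective (algebraMap Y0 Y01))
    (h0 : RingHom.ker (algebraMap A0 X0) ⊓ RingHom.ker (algebraMap A0 Y0) = ⊥) :
    RingHom.ker (algebraMap A01 X01) ⊓ RingHom.ker (algebraMap A01 Y01) = ⊥ := by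
  rw [eq_bot_iff]
  rintro x ⟨h1, h2⟩
  rw [SetLike.mem_coe, RingHom.mem_ker] at h1 h2
  obtain ⟨⟨a, ⟨_, n, rfl⟩⟩, ha⟩ := IsLocalization.surj (Submonoid.powers t) x
  have ha' : x * algebraMap A0 A01 (t ^ n) = algebraMap A0 A01 a := ha
  have haX : algebraMap A0 X0 a = 0 := by
    apply hiX
    have := RingHom.congr_fun hX0 a
    simp only [RingHom.comp_apply] at this
    rw [this, ← ha', map_mul, h1, zero_mul, map_zero]
  have haY : algebraMap A0 Y0 a = 0 := by
    apply hiY
    have := RingHom.congr_fun hY0 a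
    simp only [RingHom.comp_apply] at this
    rw [this, ← ha', map_mul, h2, zero_mul, map_zero]
  have ha0 : a = 0 := by
    have : a ∈ RingHom.ker (algebraMap A0 X0) ⊓ RingHom.ker (algebraMap A0 Y0) := ⟨haX, haY⟩
    rw [h0] at this
    exact this
  have hu : IsUnit (algebraMap A0 A01 (t ^ n)) :=
    IsLocalization.map_units (M := Submonoid.powers t) A01 ⟨t ^ n, n, rfl⟩
  rw [ha0, map_zero] at ha'
  rw [Ideal.mem_bot]
  exact (hu.mul_left_eq_zero).1 ha'

/-! ### (ii): the node ring is finite -/

section NodeRing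

variable {κ A0 X0 Y0 : Type*} [Field κ] [CommRing A0] [CommRing X0] [CommRing Y0]
  [Algebra κ A0] [Algebra κ X0] [Algebra A0 X0] [IsScalarTower κ A0 X0] [Algebra A0 Y0]
  [IsDomain X0]

/-- **(ii), `κ`-finite form.**  The component chart `X0` is a domain, finite over `κ[t]`;
`A0 → X0` is surjective; the two components have no common part on the chart and the component `Y`
is not the whole chart.  Then the node ring `A0 ⧸ (ker ⊔ ker)` is finite-dimensional over `κ`. -/
theorem moduleFinite_quotient_ker_sup_ker (tX : X0)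
    (hfin : Module.Finite κ[X] (Module.AEval κ X0 tX))
    (sX : Function.Surjective (algebraMap A0 X0))
    (h0 : RingHom.ker (algebraMap A0 X0) ⊓ RingHom.ker (algebraMap A0 Y0) = ⊥)
    (hY : RingHom.ker (algebraMap A0 Y0) ≠ ⊥) :
    Module.Finite κ (A0 ⧸ (RingHom.ker (algebraMap A0 X0) ⊔ RingHom.ker (algebraMap A0 Y0))) := by
  -- an element of `ker (A0 → Y0)` which does not vanish on `X`
  obtain ⟨e, heY, he0⟩ := Submodule.exists_mem_ne_zero_of_ne_bot hY
  have heX : algebraMap A0 X0 e ≠ 0 := by
    intro h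
    apply he0
    have : e ∈ RingHom.ker (algebraMap A0 X0) ⊓ RingHom.ker (algebraMap A0 Y0) := ⟨h, heY⟩
    rw [h0] at this
    exact this
  set J : Ideal A0 := RingHom.ker (algebraMap A0 X0) ⊔ RingHom.ker (algebraMap A0 Y0) with hJ
  -- `X0 ⧸ (ē)` is finite-dimensional
  haveI hQ : Module.Finite κ (X0 ⧸ Submodule.span X0 {algebraMap A0 X0 e}) :=
    DegAdd79Alg.finite_quotient_span_singleton (K := κ) (R := X0) (N := X0) tX hfin _ heX
  -- the `κ`-linear surjection `X0 ⧸ (ē) → A0 ⧸ J`
  have hle : Submodule.span X0 {algebraMap A0 X0 e} ≤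
      (J.map (algebraMap A0 X0)).restrictScalars X0 := by
    rw [Submodule.span_le, Set.singleton_subset_iff]
    exact Ideal.mem_map_of_mem _ (Ideal.mem_sup_right heY)
  -- `A0 ⧸ J ≃ X0 ⧸ J X0` as rings, `κ`-linearly
  let φ : A0 →ₐ[κ] X0 := IsScalarTower.toAlgHom κ A0 X0
  have hcomap : (J.map (algebraMap A0 X0)).comap (algebraMap A0 X0) = J := by
    rw [Ideal.comap_map_of_surjective _ sX]
    refine le_antisymm (sup_le le_rfl ?_) le_sup_left
    intro x hx
    exact Ideal.mem_sup_left hx
  let ψ : (X0 ⧸ Submodule.span X0 {algebraMap A0 X0 e}) →ₗ[κ] (X0 ⧸ J.map (algebraMap A0 X0)) :=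
    ((Submodule.span X0 {algebraMap A0 X0 e}).mapQ ((J.map (algebraMap A0 X0)).restrictScalars X0)
      LinearMap.id hle).restrictScalars κ
  have hψ : Function.Surjective ψ := by
    intro z
    obtain ⟨y, rfl⟩ := Ideal.Quotient.mk_surjective z
    exact ⟨Submodule.Quotient.mk y, rfl⟩
  haveI : Module.Finite κ (X0 ⧸ J.map (algebraMap A0 X0)) := Module.Finite.of_surjective ψ hψ
  -- `A0 ⧸ J → X0 ⧸ J X0` is injective and `κ`-linear
  let θ : (A0 ⧸ J) →ₐ[κ] (X0 ⧸ J.map (algebraMap A0 X0)) :=
    Ideal.quotientMapₐ (J.map (algebraMap A0 X0)) φ (by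
      intro x hx
      exact Ideal.mem_map_of_mem _ hx)
  have hθ : Function.Injective θ := by
    rw [injective_iff_map_eq_zero]
    intro z hz
    obtain ⟨x, rfl⟩ := Ideal.Quotient.mk_surjective z
    have h1 : Ideal.Quotient.mk (J.map (algebraMap A0 X0)) (algebraMap A0 X0 x) = 0 := hz
    rw [Ideal.Quotient.eq_zero_iff_mem] at h1
    have h2 : x ∈ (J.map (algebraMap A0 X0)).comap (algebraMap A0 X0) := h1
    rw [hcomap] at h2
    exact Ideal.Quotient.eq_zero_iff_mem.2 h2
  exact Module.Finite.of_injective θ.toLinearMap hθ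

/-- **(ii)**: over a finite field the node ring is finite. -/
theorem finite_quotient_ker_sup_ker [Finite κ] (tX : X0)
    (hfin : Module.Finite κ[X] (Module.AEval κ X0 tX))
    (sX : Function.Surjective (algebraMap A0 X0))
    (h0 : RingHom.ker (algebraMap A0 X0) ⊓ RingHom.ker (algebraMap A0 Y0) = ⊥)
    (hY : RingHom.ker (algebraMap A0 Y0) ≠ ⊥) :
    Finite (A0 ⧸ (RingHom.ker (algebraMap A0 X0) ⊔ RingHom.ker (algebraMap A0 Y0))) := by
  haveI := moduleFinite_quotient_ker_sup_ker tX hfin sX h0 hY
  exact Module.finite_of_finite κ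

end NodeRing

end Fermat.Agent.MAZ.PicFinModel22
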