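/-
MAZ / T1B-U, brick U3'-MODEL (row 738) (helper22): THE OVERLAP HYPOTHESES `s01`, `ker01`, `inf01` AND THE
FINITENESS OF THE NODE RINGS ARE CONSEQUENCES OF `RedN3.NodalGood` + `Bal60.Comp`.

`c : TwoChart A R0 R1 R01`, `hg : RedN3.NodalGood c p ι`, `X : Bal60.Comp c (hg.P0 i) (hg.P1 i) K`.
helper85's `Ker85.mem_J1L_of_res_eq_one` (KER) and helper75's `PicFin75.exists_pow_mem_J1L` (TORS)
take as hypotheses

  `s01   : ∀ i, Surjective (algebraMap R01 (X i).C01)`,
  `ker01 : ∀ i, ker (algebraMap R01 (X i).C01) = hg.Q i`,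
  `inf01 : ∀ x : R01, (∀ i, x ∈ hg.Q i) → ∃ y, x = algebraMap A R01 p * y`,
  `[Finite (R_j ⧸ (hg.P_j 0 ⊔ hg.P_j 1))]`.

All four are proved here, GENERICALLY:

* `comp_surjective01`   : `s01` (from `surj0`, `surj1`, the two squares, `chart.ts`, `chart.away0`);
* `comp_ker01`          : `ker01` (from `ker0`, `comap0`, `c.away0`, `C0 ↪ C01`);
* `nodalGood_inf01`     : `inf01` (localise `inf0` at `t`);
* `finite_quotient_sup_of_not_le`, `comp_finite_quotient_sup0/1` : the node rings are finite as soon as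
  `K` is finite and the two components are distinct on the chart (`¬ hg.P_j 1 ≤ hg.P_j 0`).
-/
import Mathlib
import Fermat.Agent.T1B.Bal60.Main
import Fermat.Agent.MAZ.PicFinModel22.Nodes

set_option autoImplicit false
set_option linter.unusedSectionVars false
set_option linter.style.haveILetI false

open Polynomial

namespace Fermat.Agent.MAZ.PicFinModel22

open Fermat.Agent.Jac Fermat.Agent.T1B.RedN3 Fermat.Agent.T1B.Bal60

universe u

/-! ### Finiteness of a node ring, general form -/

/-- **(ii), general form**: `X0` a domain finite over `κ[t]` (`κ` finite), `A0 → X0` surjective,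
`PY` an ideal of `A0` not contained in the kernel.  Then `A0 ⧸ (ker ⊔ PY)` is finite. -/
theorem finite_quotient_sup_of_not_le {κ A0 X0 : Type*} [Field κ] [Finite κ] [CommRing A0]
    [CommRing X0] [Algebra κ X0] [Algebra A0 X0] [IsDomain X0] (tX : X0)
    (hfin : Module.Finite κ[X] (Module.AEval κ X0 tX))
    (sX : Function.Surjective (algebraMap A0 X0)) (PY : Ideal A0)
    (hne : ¬ PY ≤ RingHom.ker (algebraMap A0 X0)) :
    Finite (A0 ⧸ (RingHom.ker (algebraMap A0 X0) ⊔ PY)) := by
  obtain ⟨e, heY, heX'⟩ := SetLike.not_le_iff_exists.1 hne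
  have heX : algebraMap A0 X0 e ≠ 0 := fun h => heX' h
  set J : Ideal A0 := RingHom.ker (algebraMap A0 X0) ⊔ PY with hJ
  haveI hQ : Module.Finite κ (X0 ⧸ Submodule.span X0 {algebraMap A0 X0 e}) :=
    Fermat.Agent.Jac.DegAdd79Alg.finite_quotient_span_singleton (K := κ) (R := X0) (N := X0)
      tX hfin _ heX
  haveI : Finite (X0 ⧸ Submodule.span X0 {algebraMap A0 X0 e}) := Module.finite_of_finite κ
  have hle : Submodule.span X0 {algebraMap A0 X0 e} ≤
      (J.map (algebraMap A0 X0)).restrictScalars X0 := by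
    rw [Submodule.span_le, Set.singleton_subset_iff]
    exact Ideal.mem_map_of_mem _ (Ideal.mem_sup_right heY)
  have hcomap : (J.map (algebraMap A0 X0)).comap (algebraMap A0 X0) = J := by
    rw [Ideal.comap_map_of_surjective _ sX]
    refine le_antisymm (sup_le le_rfl ?_) le_sup_left
    intro x hx
    exact Ideal.mem_sup_left hx
  let ψ : (X0 ⧸ Submodule.span X0 {algebraMap A0 X0 e}) →ₗ[X0] (X0 ⧸ J.map (algebraMap A0 X0)) :=
    (Submodule.span X0 {algebraMap A0 X0 e}).mapQ ((J.map (algebraMap A0 X0)).restrictScalars X0)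
      LinearMap.id hle
  have hψ : Function.Surjective ψ := by
    intro z
    obtain ⟨y, rfl⟩ := Ideal.Quotient.mk_surjective z
    exact ⟨Submodule.Quotient.mk y, rfl⟩
  haveI : Finite (X0 ⧸ J.map (algebraMap A0 X0)) := Finite.of_surjective ψ hψ
  let θ : (A0 ⧸ J) →+* (X0 ⧸ J.map (algebraMap A0 X0)) :=
    Ideal.quotientMap (J.map (algebraMap A0 X0)) (algebraMap A0 X0) (by
      intro x hx
      exact Ideal.mem_map_of_mem _ hx)
  have hθ : Function.Injective θ := by
    rw [injective_iff_map_eq_zero]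
    intro z hz
    obtain ⟨x, rfl⟩ := Ideal.Quotient.mk_surjective z
    have h1 : Ideal.Quotient.mk (J.map (algebraMap A0 X0)) (algebraMap A0 X0 x) = 0 := hz
    rw [Ideal.Quotient.eq_zero_iff_mem] at h1
    have h2 : x ∈ (J.map (algebraMap A0 X0)).comap (algebraMap A0 X0) := h1
    rw [hcomap] at h2
    exact Ideal.Quotient.eq_zero_iff_mem.2 h2
  exact Finite.of_injective θ hθ

/-! ### The overlap of a component -/

section Comp

variable {A R0 R1 R01 : Type u} [CommRing A] [CommRing R0] [CommRing R1] [CommRing R01]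
  [Algebra A R0] [Algebra A R1] [Algebra A R01] [Algebra R0 R01] [Algebra R1 R01]
  [IsScalarTower A R0 R01] [IsScalarTower A R1 R01]
  {c : TwoChart A R0 R1 R01} {K : Type u} [Field K]

/-- **`s01`**: the restriction `R01 → C01` to a component is surjective. -/
theorem comp_surjective01 {P0 : Ideal R0} {P1 : Ideal R1} (X : Comp c P0 P1 K) :
    Function.Surjective (algebraMap R01 X.C01) := by
  haveI := X.chart.away0
  have im0 : ∀ x : X.C0, ∃ a : R01, algebraMap R01 X.C01 a = algebraMap X.C0 X.C01 x := by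
    intro x
    obtain ⟨a, rfl⟩ := X.surj0 x
    refine ⟨algebraMap R0 R01 a, ?_⟩
    have := RingHom.congr_fun X.hc0 a
    simp only [RingHom.comp_apply] at this
    exact this.symm
  have im1 : ∀ x : X.C1, ∃ a : R01, algebraMap R01 X.C01 a = algebraMap X.C1 X.C01 x := by
    intro x
    obtain ⟨a, rfl⟩ := X.surj1 x
    refine ⟨algebraMap R1 R01 a, ?_⟩
    have := RingHom.congr_fun X.hc1 a
    simp only [RingHom.comp_apply] at this
    exact this.symm
  intro z
  obtain ⟨⟨x, ⟨_, n, rfl⟩⟩, hx⟩ := IsLocalization.surj (Submonoid.powers X.chart.t) z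
  have hx' : z * algebraMap X.C0 X.C01 (X.chart.t ^ n) = algebraMap X.C0 X.C01 x := hx
  have hz : z = algebraMap X.C0 X.C01 x * algebraMap X.C1 X.C01 (X.chart.s ^ n) := by
    rw [← hx', map_pow, map_pow, mul_assoc, ← mul_pow, X.chart.ts, one_pow, mul_one]
  obtain ⟨a, ha⟩ := im0 x
  obtain ⟨b, hb⟩ := im1 (X.chart.s ^ n)
  exact ⟨a * b, by rw [map_mul, ha, hb, hz]⟩

/-- The chart `0` of a component injects into its overlap. -/
theorem comp_injective0 {P0 : Ideal R0} {P1 : Ideal R1} (X : Comp c P0 P1 K) :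
    Function.Injective (algebraMap X.C0 X.C01) := by
  haveI := X.chart.away0
  exact injective_algebraMap_of_away X.chart.t

/-- An element `a / t ^ n` of the overlap. -/
theorem exists_mul_pow_eq (c : TwoChart A R0 R1 R01) (x : R01) :
    ∃ (a : R0) (n : ℕ), x * algebraMap R0 R01 (c.t ^ n) = algebraMap R0 R01 a := by
  haveI := c.away0
  obtain ⟨⟨a, ⟨_, n, rfl⟩⟩, ha⟩ := IsLocalization.surj (Submonoid.powers c.t) x
  exact ⟨a, n, ha⟩

theorem isUnit_algebraMap_t_pow (c : TwoChart A R0 R1 R01) (n : ℕ) :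
    IsUnit (algebraMap R0 R01 (c.t ^ n)) := by
  haveI := c.away0
  exact IsLocalization.map_units (M := Submonoid.powers c.t) R01 ⟨c.t ^ n, n, rfl⟩

variable {p : A} {ι : Type} (hg : NodalGood c p ι)

/-- **`ker01`**: the kernel of the restriction `R01 → C01` to the component `i` is `hg.Q i`. -/
theorem comp_ker01 (i : ι) (X : Comp c (hg.P0 i) (hg.P1 i) K) :
    RingHom.ker (algebraMap R01 X.C01) = hg.Q i := by
  ext x
  obtain ⟨a, n, ha⟩ := exists_mul_pow_eq c x
  have hu := isUnit_algebraMap_t_pow c n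
  -- `x ∈ Q ↔ a ∈ Q ↔ a ∈ P0 ↔ a ↦ 0 in C0 ↔ a ↦ 0 in C01 ↔ x ↦ 0`
  have h1 : x ∈ hg.Q i ↔ algebraMap R0 R01 a ∈ hg.Q i := by
    rw [← ha]
    constructor
    · intro h
      exact (hg.Q i).mul_mem_right _ h
    · intro h
      obtain ⟨v, hv⟩ := hu.exists_right_inv
      have : x = x * algebraMap R0 R01 (c.t ^ n) * v := by rw [mul_assoc, hv, mul_one]
      rw [this]
      exact (hg.Q i).mul_mem_right _ h
  have h2 : algebraMap R0 R01 a ∈ hg.Q i ↔ a ∈ hg.P0 i := by
    rw [← hg.comap0 i, Ideal.mem_comap]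
  have h3 : a ∈ hg.P0 i ↔ algebraMap R0 X.C0 a = 0 := by
    have hk := X.ker0
    constructor
    · intro h
      have : a ∈ RingHom.ker (algebraMap R0 X.C0) := by rw [hk]; exact h
      exact this
    · intro h
      have : a ∈ RingHom.ker (algebraMap R0 X.C0) := h
      rw [hk] at this
      exact this
  have h4 : algebraMap R0 X.C0 a = 0 ↔ algebraMap R01 X.C01 (algebraMap R0 R01 a) = 0 := by
    have := RingHom.congr_fun X.hc0 a
    simp only [RingHom.comp_apply] at this
    rw [← this]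
    constructor
    · intro h
      rw [h, map_zero]
    · intro h
      exact comp_injective0 X (by rw [h, map_zero])
  have h5 : algebraMap R01 X.C01 (algebraMap R0 R01 a) = 0 ↔ algebraMap R01 X.C01 x = 0 := by
    rw [← ha, map_mul]
    have hu' : IsUnit (algebraMap R01 X.C01 (algebraMap R0 R01 (c.t ^ n))) := hu.map _
    exact hu'.mul_left_eq_zero
  rw [RingHom.mem_ker, h1, h2, h3, h4, h5]

/-- **`inf01`**: the saturation property on the overlap follows from the one on the chart `0`. -/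
theorem nodalGood_inf01 (x : R01) (hx : ∀ i, x ∈ hg.Q i) :
    ∃ y : R01, x = algebraMap A R01 p * y := by
  obtain ⟨a, n, ha⟩ := exists_mul_pow_eq c x
  obtain ⟨v, hv⟩ := (isUnit_algebraMap_t_pow c n).exists_right_inv
  have haP : ∀ i, a ∈ hg.P0 i := fun i => by
    rw [← hg.comap0 i, Ideal.mem_comap, ← ha]
    exact (hg.Q i).mul_mem_right _ (hx i)
  obtain ⟨b, rfl⟩ := hg.inf0 a haP
  refine ⟨algebraMap R0 R01 b * v, ?_⟩
  have : x = x * algebraMap R0 R01 (c.t ^ n) * v := by rw [mul_assoc, hv, mul_one]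
  rw [this, ha, map_mul, ← IsScalarTower.algebraMap_apply, mul_assoc]

/-! ### The node rings upstairs -/

variable [Finite K]

/-- **The node ring on the chart `0` is finite** when the components `i ≠ j` are distinct there. -/
theorem comp_finite_quotient_sup0 {i j : ι} (X : Comp c (hg.P0 i) (hg.P1 i) K)
    (hne : ¬ hg.P0 j ≤ hg.P0 i) : Finite (R0 ⧸ (hg.P0 i ⊔ hg.P0 j)) := by
  have h := finite_quotient_sup_of_not_le (κ := K) (A0 := R0) (X0 := X.C0) X.chart.t X.fpl.fin0
    X.surj0 (hg.P0 j) (by rw [X.ker0]; exact hne)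
  rwa [X.ker0] at h

/-- **The node ring on the chart `1` is finite** when the components `i ≠ j` are distinct there. -/
theorem comp_finite_quotient_sup1 {i j : ι} (X : Comp c (hg.P0 i) (hg.P1 i) K)
    (hne : ¬ hg.P1 j ≤ hg.P1 i) : Finite (R1 ⧸ (hg.P1 i ⊔ hg.P1 j)) := by
  have h := finite_quotient_sup_of_not_le (κ := K) (A0 := R1) (X0 := X.C1) X.chart.s X.fpl.fin1
    X.surj1 (hg.P1 j) (by rw [X.ker1]; exact hne)
  rwa [X.ker1] at h

end Comp

end Fermat.Agent.MAZ.PicFinModel22
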