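/-
MAZ / T1B-U, brick U3' (TORS) (row 738), HUB PACKAGING (helper22): **every class of multidegree `0`
on the nodal model has a power in the kernel of reduction**, for components `X i` over ANY finite
field `K` (NOT necessarily the type `IsLocalRing.ResidueField O`).

This is the form consumed by T1B's union over the levels: there `P E = Bal60.P00 (transfer …)
(NodalBC53.Bal.compHub … X)` and `compHub` keeps the number-field-level field `K` of `X`, so
helper75's `PicFin75.exists_pow_mem_J1L_of_finite_residueField` (components over the type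
`IsLocalRing.ResidueField O`, hypotheses `s01`, `ker01`, `inf01`) does not apply verbatim.

`c0 : TwoChart W B0 B1 B01`, `O` a DVR over `W` with uniformiser `π`,
`hg : RedN3.NodalGood (c0.baseChange O) π (Fin 2)`, `X i : Bal60.Comp (c0.baseChange O) (hg.P0 i)
(hg.P1 i) K`, `K` a FINITE field, the two components distinct on each chart
(`¬ hg.P0 1 ≤ hg.P0 0`, `¬ hg.P1 1 ≤ hg.P1 0`).  NO other hypothesis (no `s01`, `ker01`, `inf01`,
no genus hypothesis, no finiteness of the residue field of `O` as a type-level datum).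

* `isTrivOn_of_liftData_unit_gen`, `trivOnClass_of_bc_eq_one_gen` : helper85's bridge
  `Torus85.trivOnClass_of_bc_eq_one` for a closed sub-curve `c'` over ANOTHER base ring;
* `exists_pow_red_eq_one_of_res_eq_one` : UNIFORM `h > 0` with `red (x ^ h) = 1` for every class `x`
  restricting trivially to both components (torus part; helper75's `PicFin75.exists_pow_eq_one`);
* `exists_pow_mem_J1_of_mem_P00` : **(TORS), hub form**: `x ∈ P00 hg X → ∃ h > 0, x ^ h ∈ J1 c0 O`
  (with helper12's `PicFin12.deg0_torsion` on each component);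
* `exists_pow_mem_inf_J1_of_mem_P00` : the same with `x ^ h ∈ P00 hg X ⊓ J1 c0 O`;
* `exists_pow_mem_J1L_of_mem_J0L` : `y ∈ J0L → ∃ h > 0, y ^ h ∈ J1L` (shape of `K3Abs43` `htors`).
-/
import Mathlib
import Fermat.Agent.MAZ.PicFin75.AssemblyFin
import Fermat.Agent.MAZ.PicFinModel22.Up

set_option autoImplicit false
set_option linter.unusedSectionVars false
set_option linter.style.haveILetI false

open TensorProduct

namespace Fermat.Agent.MAZ.PicFinModel22

open Fermat.Agent.Jac Fermat.Agent.Jac.LineOps39 Fermat.Agent.Jac.JGroup85Pic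
open Fermat.Agent.Jac.JSmooth85Alg Fermat.Agent.Jac.BaseChange75
open Fermat.Agent.T1.RedIface75 Fermat.Agent.T1B.RedN3 Fermat.Agent.T1B.Bal60
open Fermat.Agent.T1B.Torus85 Fermat.Agent.T1B.Torus85.Closed
open scoped Fermat.Agent.Jac.BaseChange75

universe u

/-! ### The bridge `LinePic.bc = 1 ⇒ TrivOnClass` for a sub-curve over another base ring -/

section Bridge

variable {κ A0 A1 A01 : Type u} [Field κ] [CommRing A0] [CommRing A1] [CommRing A01]
  [Algebra κ A0] [Algebra κ A1] [Algebra κ A01] [Algebra A0 A01] [Algebra A1 A01]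
  [IsScalarTower κ A0 A01] [IsScalarTower κ A1 A01]
  {K' A0' A1' A01' : Type u} [CommRing K'] [CommRing A0'] [CommRing A1'] [CommRing A01']
  [Algebra K' A0'] [Algebra K' A1'] [Algebra K' A01'] [Algebra A0' A01'] [Algebra A1' A01']
  [IsScalarTower K' A0' A01'] [IsScalarTower K' A1' A01']
  [Algebra A0 A0'] [Algebra A1 A1'] [Algebra A01 A01']
  (hc0 : (algebraMap A0' A01').comp (algebraMap A0 A0') =
    (algebraMap A01 A01').comp (algebraMap A0 A01))
  (hc1 : (algebraMap A1' A01').comp (algebraMap A1 A1') =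
    (algebraMap A01 A01').comp (algebraMap A1 A01))

/-- helper85's `Torus85.isTrivOn_of_liftData_unit` with the target over another base ring `K'`. -/
theorem isTrivOn_of_liftData_unit_gen (hs0 : Function.Surjective (algebraMap A0 A0'))
    (hs1 : Function.Surjective (algebraMap A1 A1'))
    (hs01 : Function.Surjective (algebraMap A01 A01'))
    {L : QC2 κ A0 A1 A01} (h : LiftData L (QC2.unit : QC2 K' A0' A1' A01')) :
    (Closed.ofCube hc0 hc1).IsTrivOn L := by
  obtain ⟨e0, he0⟩ := exists_one_tmul_eq hs0 (h.e0.symm (1 : A0'))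
  obtain ⟨e1, he1⟩ := exists_one_tmul_eq hs1 (h.e1.symm (1 : A1'))
  have h0 : h.e0 ((1 : A0') ⊗ₜ[A0] e0) = (1 : A0') := by rw [he0, LinearEquiv.apply_symm_apply]
  have h1 : h.e1 ((1 : A1') ⊗ₜ[A1] e1) = (1 : A1') := by rw [he1, LinearEquiv.apply_symm_apply]
  refine ⟨e0, e1, ?_, ?_, ?_⟩
  · intro n
    obtain ⟨a, ha⟩ := hs0 (h.e0 ((1 : A0') ⊗ₜ[A0] n))
    refine ⟨a, ?_⟩
    apply mem_ker_smul_top_of_one_tmul_eq_zero hs0
    apply h.e0.injective
    rw [map_zero, TensorProduct.tmul_sub, map_sub, TensorProduct.tmul_smul,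
      ← algebraMap_smul A0' a ((1 : A0') ⊗ₜ[A0] e0), map_smul, h0, ← ha]
    show algebraMap A0 A0' a - algebraMap A0 A0' a • (1 : A0') = 0
    rw [smul_eq_mul, mul_one, sub_self]
  · intro n
    obtain ⟨a, ha⟩ := hs1 (h.e1 ((1 : A1') ⊗ₜ[A1] n))
    refine ⟨a, ?_⟩
    apply mem_ker_smul_top_of_one_tmul_eq_zero hs1
    apply h.e1.injective
    rw [map_zero, TensorProduct.tmul_sub, map_sub, TensorProduct.tmul_smul,
      ← algebraMap_smul A1' a ((1 : A1') ⊗ₜ[A1] e1), map_smul, h1, ← ha]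
    show algebraMap A1 A1' a - algebraMap A1 A1' a • (1 : A1') = 0
    rw [smul_eq_mul, mul_one, sub_self]
  · apply mem_ker_smul_top_of_one_tmul_eq_zero hs01
    apply h.e01.injective
    rw [map_zero, TensorProduct.tmul_sub, map_sub, h.comm0, h.comm1, h0, h1]
    show algebraMap A0' A01' 1 - algebraMap A1' A01' 1 = 0
    rw [map_one, map_one, sub_self]

/-- helper85's `Torus85.trivOnClass_of_bc_eq_one` with the target over another base ring `K'`:
a class killed by `LinePic.bc` along a surjective cube is trivial along the closed subscheme. -/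
theorem trivOnClass_of_bc_eq_one_gen (c : TwoChart κ A0 A1 A01) (c' : TwoChart K' A0' A1' A01')
    (hs0 : Function.Surjective (algebraMap A0 A0'))
    (hs1 : Function.Surjective (algebraMap A1 A1'))
    (hs01 : Function.Surjective (algebraMap A01 A01'))
    {x : LinePic c} (hx : LinePic.bc hc0 hc1 c c' x = 1) :
    (Closed.ofCube hc0 hc1).TrivOnClass c x := by
  obtain ⟨L, hL, rfl⟩ := LinePic.exists_rep x
  rw [LinePic.one_def] at hx
  obtain ⟨h⟩ := LinePic.nonempty_liftData_of_bc_eq hc0 hc1 c c' hL isLine_unit hx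
  exact ⟨L, hL, rfl, isTrivOn_of_liftData_unit_gen hc0 hc1 hs0 hs1 hs01 h⟩

end Bridge

/-! ### The hub -/

section HubForm

variable {W B0 B1 B01 : Type u} [CommRing W] [CommRing B0] [CommRing B1] [CommRing B01]
  [Algebra W B0] [Algebra W B1] [Algebra W B01] [Algebra B0 B01] [Algebra B1 B01]
  [IsScalarTower W B0 B01] [IsScalarTower W B1 B01]
  (c0 : TwoChart W B0 B1 B01)
  {O : Type u} [CommRing O] [IsDomain O] [IsDiscreteValuationRing O] [Algebra W O]

/-- **(TORS), torus part, hub form.**  There is a UNIFORM `h > 0` such that `red (x ^ h) = 1` for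
every class `x` on the nodal model whose restrictions to the two components are trivial.  The
components `X i` live over an arbitrary FINITE field `K`. -/
theorem exists_pow_red_eq_one_of_res_eq_one {π : O}
    (hπ : IsLocalRing.maximalIdeal O = Ideal.span {π})
    (hg : NodalGood (c0.baseChange O) π (Fin 2))
    {K : Type u} [Field K] [Finite K]
    (X : ∀ i, Comp (c0.baseChange O) (hg.P0 i) (hg.P1 i) K)
    (hne0 : ¬ hg.P0 1 ≤ hg.P0 0) (hne1 : ¬ hg.P1 1 ≤ hg.P1 0) :
    ∃ h : ℕ, 0 < h ∧ ∀ x : PicX c0 O, (∀ i, (X i).res x = 1) → red c0 O (x ^ h) = 1 := by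
  -- the overlap hypotheses are automatic
  have s01 : ∀ i, Function.Surjective (algebraMap (O ⊗[W] B01) (X i).C01) :=
    fun i => comp_surjective01 (X i)
  have ker01 : ∀ i, RingHom.ker (algebraMap (O ⊗[W] B01) (X i).C01) = hg.Q i :=
    fun i => comp_ker01 hg i (X i)
  have inf01 : ∀ x : O ⊗[W] B01, (∀ i, x ∈ hg.Q i) →
      ∃ y : O ⊗[W] B01, x = algebraMap O (O ⊗[W] B01) π * y := nodalGood_inf01 hg
  -- abbreviations
  let a0 := algebraMap (O ⊗[W] B0) (IsLocalRing.ResidueField O ⊗[W] B0)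
  let a1 := algebraMap (O ⊗[W] B1) (IsLocalRing.ResidueField O ⊗[W] B1)
  let a01 := algebraMap (O ⊗[W] B01) (IsLocalRing.ResidueField O ⊗[W] B01)
  have sa0 : Function.Surjective a0 := surjective_algebraMap_left O B0
  have sa1 : Function.Surjective a1 := surjective_algebraMap_left O B1
  have sa01 : Function.Surjective a01 := surjective_algebraMap_left O B01
  have memQ' : ∀ i, algebraMap O (O ⊗[W] B01) π ∈ hg.Q i := fun i => by
    have h := hg.mem0 i
    rw [← hg.comap0 i, Ideal.mem_comap, ← IsScalarTower.algebraMap_apply] at h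
    exact h
  have k0 : ∀ i, RingHom.ker a0 ≤ RingHom.ker (algebraMap (O ⊗[W] B0) (X i).C0) := fun i =>
    PicFin75.ker_left_le_ker' hπ B0 _ (by
      have := hg.mem0 i
      rw [← (X i).ker0] at this
      exact this)
  have k1 : ∀ i, RingHom.ker a1 ≤ RingHom.ker (algebraMap (O ⊗[W] B1) (X i).C1) := fun i =>
    PicFin75.ker_left_le_ker' hπ B1 _ (by
      have := hg.mem1 i
      rw [← (X i).ker1] at this
      exact this)
  have k01 : ∀ i, RingHom.ker a01 ≤ RingHom.ker (algebraMap (O ⊗[W] B01) (X i).C01) := fun i =>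
    PicFin75.ker_left_le_ker' hπ B01 _ (by
      have := memQ' i
      rw [← ker01 i] at this
      exact this)
  -- the `κ ⊗ B_j`-algebra structures on the components
  letI algX0 : Algebra (IsLocalRing.ResidueField O ⊗[W] B0) (X 0).C0 :=
    (RingHom.liftOfSurjective a0 sa0 ⟨algebraMap _ (X 0).C0, k0 0⟩).toAlgebra
  letI algX1 : Algebra (IsLocalRing.ResidueField O ⊗[W] B1) (X 0).C1 :=
    (RingHom.liftOfSurjective a1 sa1 ⟨algebraMap _ (X 0).C1, k1 0⟩).toAlgebra
  letI algX01 : Algebra (IsLocalRing.ResidueField O ⊗[W] B01) (X 0).C01 :=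
    (RingHom.liftOfSurjective a01 sa01 ⟨algebraMap _ (X 0).C01, k01 0⟩).toAlgebra
  letI algY0 : Algebra (IsLocalRing.ResidueField O ⊗[W] B0) (X 1).C0 :=
    (RingHom.liftOfSurjective a0 sa0 ⟨algebraMap _ (X 1).C0, k0 1⟩).toAlgebra
  letI algY1 : Algebra (IsLocalRing.ResidueField O ⊗[W] B1) (X 1).C1 :=
    (RingHom.liftOfSurjective a1 sa1 ⟨algebraMap _ (X 1).C1, k1 1⟩).toAlgebra
  letI algY01 : Algebra (IsLocalRing.ResidueField O ⊗[W] B01) (X 1).C01 :=
    (RingHom.liftOfSurjective a01 sa01 ⟨algebraMap _ (X 1).C01, k01 1⟩).toAlgebra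
  have eX0 : ∀ z : O ⊗[W] B0, algebraMap (IsLocalRing.ResidueField O ⊗[W] B0) (X 0).C0 (a0 z) =
      algebraMap (O ⊗[W] B0) (X 0).C0 z :=
    fun z => RingHom.liftOfSurjective_comp_apply a0 sa0 ⟨_, k0 0⟩ z
  have eX1 : ∀ z : O ⊗[W] B1, algebraMap (IsLocalRing.ResidueField O ⊗[W] B1) (X 0).C1 (a1 z) =
      algebraMap (O ⊗[W] B1) (X 0).C1 z :=
    fun z => RingHom.liftOfSurjective_comp_apply a1 sa1 ⟨_, k1 0⟩ z
  have eX01 : ∀ z : O ⊗[W] B01,
      algebraMap (IsLocalRing.ResidueField O ⊗[W] B01) (X 0).C01 (a01 z) =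
      algebraMap (O ⊗[W] B01) (X 0).C01 z :=
    fun z => RingHom.liftOfSurjective_comp_apply a01 sa01 ⟨_, k01 0⟩ z
  have eY0 : ∀ z : O ⊗[W] B0, algebraMap (IsLocalRing.ResidueField O ⊗[W] B0) (X 1).C0 (a0 z) =
      algebraMap (O ⊗[W] B0) (X 1).C0 z :=
    fun z => RingHom.liftOfSurjective_comp_apply a0 sa0 ⟨_, k0 1⟩ z
  have eY1 : ∀ z : O ⊗[W] B1, algebraMap (IsLocalRing.ResidueField O ⊗[W] B1) (X 1).C1 (a1 z) =
      algebraMap (O ⊗[W] B1) (X 1).C1 z :=
    fun z => RingHom.liftOfSurjective_comp_apply a1 sa1 ⟨_, k1 1⟩ z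
  have eY01 : ∀ z : O ⊗[W] B01,
      algebraMap (IsLocalRing.ResidueField O ⊗[W] B01) (X 1).C01 (a01 z) =
      algebraMap (O ⊗[W] B01) (X 1).C01 z :=
    fun z => RingHom.liftOfSurjective_comp_apply a01 sa01 ⟨_, k01 1⟩ z
  haveI tX0 : IsScalarTower (O ⊗[W] B0) (IsLocalRing.ResidueField O ⊗[W] B0) (X 0).C0 :=
    IsScalarTower.of_algebraMap_eq fun z => (eX0 z).symm
  haveI tX1 : IsScalarTower (O ⊗[W] B1) (IsLocalRing.ResidueField O ⊗[W] B1) (X 0).C1 :=
    IsScalarTower.of_algebraMap_eq fun z => (eX1 z).symm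
  haveI tX01 : IsScalarTower (O ⊗[W] B01) (IsLocalRing.ResidueField O ⊗[W] B01) (X 0).C01 :=
    IsScalarTower.of_algebraMap_eq fun z => (eX01 z).symm
  haveI tY0 : IsScalarTower (O ⊗[W] B0) (IsLocalRing.ResidueField O ⊗[W] B0) (X 1).C0 :=
    IsScalarTower.of_algebraMap_eq fun z => (eY0 z).symm
  haveI tY1 : IsScalarTower (O ⊗[W] B1) (IsLocalRing.ResidueField O ⊗[W] B1) (X 1).C1 :=
    IsScalarTower.of_algebraMap_eq fun z => (eY1 z).symm
  haveI tY01 : IsScalarTower (O ⊗[W] B01) (IsLocalRing.ResidueField O ⊗[W] B01) (X 1).C01 :=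
    IsScalarTower.of_algebraMap_eq fun z => (eY01 z).symm
  -- `π` dies in `κ ⊗ B_j`
  have hres0 : IsLocalRing.residue O π = 0 := by
    rw [IsLocalRing.residue_eq_zero_iff, hπ]
    exact Ideal.mem_span_singleton_self π
  have hπ0 : a0 (algebraMap O (O ⊗[W] B0) π) = 0 := by
    rw [Algebra.TensorProduct.algebraMap_apply]
    show a0 (algebraMap O O π ⊗ₜ[W] (1 : B0)) = 0
    rw [algebraMap_left_tmul W O (IsLocalRing.ResidueField O) B0]
    have : algebraMap O (IsLocalRing.ResidueField O) (algebraMap O O π) = 0 := hres0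
    rw [this, TensorProduct.zero_tmul]
  have hπ1 : a1 (algebraMap O (O ⊗[W] B1) π) = 0 := by
    rw [Algebra.TensorProduct.algebraMap_apply]
    show a1 (algebraMap O O π ⊗ₜ[W] (1 : B1)) = 0
    rw [algebraMap_left_tmul W O (IsLocalRing.ResidueField O) B1]
    have : algebraMap O (IsLocalRing.ResidueField O) (algebraMap O O π) = 0 := hres0
    rw [this, TensorProduct.zero_tmul]
  have hπ01 : a01 (algebraMap O (O ⊗[W] B01) π) = 0 := by
    rw [Algebra.TensorProduct.algebraMap_apply]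
    show a01 (algebraMap O O π ⊗ₜ[W] (1 : B01)) = 0
    rw [algebraMap_left_tmul W O (IsLocalRing.ResidueField O) B01]
    have : algebraMap O (IsLocalRing.ResidueField O) (algebraMap O O π) = 0 := hres0
    rw [this, TensorProduct.zero_tmul]
  -- the squares over `κ ⊗ B_j`
  have sq0 := square_comm W O (IsLocalRing.ResidueField O) B0 B01
  have sq1 := square_comm W O (IsLocalRing.ResidueField O) B1 B01
  have hX0 : (algebraMap (X 0).C0 (X 0).C01).comp
      (algebraMap (IsLocalRing.ResidueField O ⊗[W] B0) (X 0).C0) =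
      (algebraMap (IsLocalRing.ResidueField O ⊗[W] B01) (X 0).C01).comp
        (algebraMap (IsLocalRing.ResidueField O ⊗[W] B0)
          (IsLocalRing.ResidueField O ⊗[W] B01)) := by
    refine RingHom.ext fun z' => ?_
    obtain ⟨z, rfl⟩ := sa0 z'
    have h1 := RingHom.congr_fun (X 0).hc0 z
    have h2 := RingHom.congr_fun sq0 z
    simp only [RingHom.comp_apply] at h1 h2 ⊢
    rw [eX0, h1, h2, eX01]
  have hX1 : (algebraMap (X 0).C1 (X 0).C01).comp
      (algebraMap (IsLocalRing.ResidueField O ⊗[W] B1) (X 0).C1) =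
      (algebraMap (IsLocalRing.ResidueField O ⊗[W] B01) (X 0).C01).comp
        (algebraMap (IsLocalRing.ResidueField O ⊗[W] B1)
          (IsLocalRing.ResidueField O ⊗[W] B01)) := by
    refine RingHom.ext fun z' => ?_
    obtain ⟨z, rfl⟩ := sa1 z'
    have h1 := RingHom.congr_fun (X 0).hc1 z
    have h2 := RingHom.congr_fun sq1 z
    simp only [RingHom.comp_apply] at h1 h2 ⊢
    rw [eX1, h1, h2, eX01]
  have hY0 : (algebraMap (X 1).C0 (X 1).C01).comp
      (algebraMap (IsLocalRing.ResidueField O ⊗[W] B0) (X 1).C0) =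
      (algebraMap (IsLocalRing.ResidueField O ⊗[W] B01) (X 1).C01).comp
        (algebraMap (IsLocalRing.ResidueField O ⊗[W] B0)
          (IsLocalRing.ResidueField O ⊗[W] B01)) := by
    refine RingHom.ext fun z' => ?_
    obtain ⟨z, rfl⟩ := sa0 z'
    have h1 := RingHom.congr_fun (X 1).hc0 z
    have h2 := RingHom.congr_fun sq0 z
    simp only [RingHom.comp_apply] at h1 h2 ⊢
    rw [eY0, h1, h2, eY01]
  have hY1 : (algebraMap (X 1).C1 (X 1).C01).comp
      (algebraMap (IsLocalRing.ResidueField O ⊗[W] B1) (X 1).C1) =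
      (algebraMap (IsLocalRing.ResidueField O ⊗[W] B01) (X 1).C01).comp
        (algebraMap (IsLocalRing.ResidueField O ⊗[W] B1)
          (IsLocalRing.ResidueField O ⊗[W] B01)) := by
    refine RingHom.ext fun z' => ?_
    obtain ⟨z, rfl⟩ := sa1 z'
    have h1 := RingHom.congr_fun (X 1).hc1 z
    have h2 := RingHom.congr_fun sq1 z
    simp only [RingHom.comp_apply] at h1 h2 ⊢
    rw [eY1, h1, h2, eY01]
  -- surjectivity
  have sX0 : Function.Surjective (algebraMap (IsLocalRing.ResidueField O ⊗[W] B0) (X 0).C0) :=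
    fun c => by obtain ⟨z, rfl⟩ := (X 0).surj0 c; exact ⟨a0 z, eX0 z⟩
  have sX1 : Function.Surjective (algebraMap (IsLocalRing.ResidueField O ⊗[W] B1) (X 0).C1) :=
    fun c => by obtain ⟨z, rfl⟩ := (X 0).surj1 c; exact ⟨a1 z, eX1 z⟩
  have sX01 : Function.Surjective
      (algebraMap (IsLocalRing.ResidueField O ⊗[W] B01) (X 0).C01) :=
    fun c => by obtain ⟨z, rfl⟩ := s01 0 c; exact ⟨a01 z, eX01 z⟩
  have sY0 : Function.Surjective (algebraMap (IsLocalRing.ResidueField O ⊗[W] B0) (X 1).C0) :=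
    fun c => by obtain ⟨z, rfl⟩ := (X 1).surj0 c; exact ⟨a0 z, eY0 z⟩
  have sY1 : Function.Surjective (algebraMap (IsLocalRing.ResidueField O ⊗[W] B1) (X 1).C1) :=
    fun c => by obtain ⟨z, rfl⟩ := (X 1).surj1 c; exact ⟨a1 z, eY1 z⟩
  have sY01 : Function.Surjective
      (algebraMap (IsLocalRing.ResidueField O ⊗[W] B01) (X 1).C01) :=
    fun c => by obtain ⟨z, rfl⟩ := s01 1 c; exact ⟨a01 z, eY01 z⟩
  -- kernels
  have fin2 : ∀ {P : Fin 2 → Prop}, P 0 → P 1 → ∀ i, P i := fun h0 h1 i => by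
    fin_cases i
    · exact h0
    · exact h1
  have h0 : RingHom.ker (algebraMap (IsLocalRing.ResidueField O ⊗[W] B0) (X 0).C0) ⊓
      RingHom.ker (algebraMap (IsLocalRing.ResidueField O ⊗[W] B0) (X 1).C0) = ⊥ := by
    refine PicFin75.ker_inf_ker_eq_bot_of_surj a0 sa0 _ _ fun z hz0 hz1 => ?_
    rw [eX0] at hz0
    rw [eY0] at hz1
    have hz0' : z ∈ hg.P0 0 := by rw [← (X 0).ker0]; exact hz0
    have hz1' : z ∈ hg.P0 1 := by rw [← (X 1).ker0]; exact hz1
    obtain ⟨w, rfl⟩ := hg.inf0 z (fin2 hz0' hz1')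
    rw [map_mul, hπ0, zero_mul]
  have h1 : RingHom.ker (algebraMap (IsLocalRing.ResidueField O ⊗[W] B1) (X 0).C1) ⊓
      RingHom.ker (algebraMap (IsLocalRing.ResidueField O ⊗[W] B1) (X 1).C1) = ⊥ := by
    refine PicFin75.ker_inf_ker_eq_bot_of_surj a1 sa1 _ _ fun z hz0 hz1 => ?_
    rw [eX1] at hz0
    rw [eY1] at hz1
    have hz0' : z ∈ hg.P1 0 := by rw [← (X 0).ker1]; exact hz0
    have hz1' : z ∈ hg.P1 1 := by rw [← (X 1).ker1]; exact hz1
    obtain ⟨w, rfl⟩ := hg.inf1 z (fin2 hz0' hz1')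
    rw [map_mul, hπ1, zero_mul]
  have h01 : RingHom.ker (algebraMap (IsLocalRing.ResidueField O ⊗[W] B01) (X 0).C01) ⊓
      RingHom.ker (algebraMap (IsLocalRing.ResidueField O ⊗[W] B01) (X 1).C01) = ⊥ := by
    refine PicFin75.ker_inf_ker_eq_bot_of_surj a01 sa01 _ _ fun z hz0 hz1 => ?_
    rw [eX01] at hz0
    rw [eY01] at hz1
    have hz0' : z ∈ hg.Q 0 := by rw [← ker01 0]; exact hz0
    have hz1' : z ∈ hg.Q 1 := by rw [← ker01 1]; exact hz1
    obtain ⟨w, rfl⟩ := inf01 z (fin2 hz0' hz1')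
    rw [map_mul, hπ01, zero_mul]
  -- the rings of nodes of the special fibre are finite
  have hneX0 : ¬ RingHom.ker (algebraMap (IsLocalRing.ResidueField O ⊗[W] B0) (X 1).C0) ≤
      RingHom.ker (algebraMap (IsLocalRing.ResidueField O ⊗[W] B0) (X 0).C0) := by
    obtain ⟨f, hf1, hf0⟩ := SetLike.not_le_iff_exists.1 hne0
    refine SetLike.not_le_iff_exists.2 ⟨a0 f, ?_, ?_⟩
    · rw [RingHom.mem_ker, eY0]
      have : f ∈ RingHom.ker (algebraMap (O ⊗[W] B0) (X 1).C0) := by rw [(X 1).ker0]; exact hf1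
      exact this
    · intro h
      rw [RingHom.mem_ker, eX0] at h
      apply hf0
      rw [← (X 0).ker0]
      exact h
  have hneX1 : ¬ RingHom.ker (algebraMap (IsLocalRing.ResidueField O ⊗[W] B1) (X 1).C1) ≤
      RingHom.ker (algebraMap (IsLocalRing.ResidueField O ⊗[W] B1) (X 0).C1) := by
    obtain ⟨f, hf1, hf0⟩ := SetLike.not_le_iff_exists.1 hne1
    refine SetLike.not_le_iff_exists.2 ⟨a1 f, ?_, ?_⟩
    · rw [RingHom.mem_ker, eY1]
      have : f ∈ RingHom.ker (algebraMap (O ⊗[W] B1) (X 1).C1) := by rw [(X 1).ker1]; exact hf1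
      exact this
    · intro h
      rw [RingHom.mem_ker, eX1] at h
      apply hf0
      rw [← (X 0).ker1]
      exact h
  haveI := (X 0).dom0
  haveI := (X 0).dom1
  have f0 : Finite ((IsLocalRing.ResidueField O ⊗[W] B0) ⧸
      ((Closed.ofCube hX0 hX1).I0 ⊔ (Closed.ofCube hY0 hY1).I0)) :=
    finite_quotient_sup_of_not_le (κ := K) (A0 := IsLocalRing.ResidueField O ⊗[W] B0)
      (X0 := (X 0).C0) (X 0).chart.t (X 0).fpl.fin0 sX0 _ hneX0
  have f1 : Finite ((IsLocalRing.ResidueField O ⊗[W] B1) ⧸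
      ((Closed.ofCube hX0 hX1).I1 ⊔ (Closed.ofCube hY0 hY1).I1)) :=
    finite_quotient_sup_of_not_le (κ := K) (A0 := IsLocalRing.ResidueField O ⊗[W] B1)
      (X0 := (X 0).C1) (X 0).chart.s (X 0).fpl.fin1 sX1 _ hneX1
  have m0 : (Closed.ofCube hX0 hX1).I0 * (Closed.ofCube hY0 hY1).I0 = ⊥ :=
    le_bot_iff.1 (h0 ▸ Ideal.mul_le_inf)
  have m1 : (Closed.ofCube hX0 hX1).I1 * (Closed.ofCube hY0 hY1).I1 = ⊥ :=
    le_bot_iff.1 (h1 ▸ Ideal.mul_le_inf)
  obtain ⟨h, hpos, hh⟩ := PicFin75.exists_pow_eq_one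
    (c := c0.baseChange (IsLocalRing.ResidueField O)) (X := Closed.ofCube hX0 hX1)
    (Y := Closed.ofCube hY0 hY1) m0 m1 h01
  refine ⟨h, hpos, fun x hres => ?_⟩
  have eX : LinePic.bc hX0 hX1 (c0.baseChange (IsLocalRing.ResidueField O)) (X 0).chart
      (red c0 O x) = 1 := by
    rw [← hres 0]
    exact Fermat.Agent.T1B.Bal60.bc_bc _ _ hX0 hX1 (X 0).hc0 (X 0).hc1 (c0.baseChange O)
      (c0.baseChange (IsLocalRing.ResidueField O)) (X 0).chart x
  have eY : LinePic.bc hY0 hY1 (c0.baseChange (IsLocalRing.ResidueField O)) (X 1).chart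
      (red c0 O x) = 1 := by
    rw [← hres 1]
    exact Fermat.Agent.T1B.Bal60.bc_bc _ _ hY0 hY1 (X 1).hc0 (X 1).hc1 (c0.baseChange O)
      (c0.baseChange (IsLocalRing.ResidueField O)) (X 1).chart x
  rw [map_pow]
  exact hh (red c0 O x)
    (trivOnClass_of_bc_eq_one_gen hX0 hX1 (c0.baseChange (IsLocalRing.ResidueField O))
      (X 0).chart sX0 sX1 sX01 eX)
    (trivOnClass_of_bc_eq_one_gen hY0 hY1 (c0.baseChange (IsLocalRing.ResidueField O))
      (X 1).chart sY0 sY1 sY01 eY)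

/-- **(TORS), hub form.**  `hg : NodalGood (c0.baseChange O) π (Fin 2)` the nodal model over the DVR
`O`, `X i` its two components over a FINITE field `K` (any field: e.g. `NodalBC53.Bal.compHub`),
distinct on each chart.  Every class of multidegree `0` has a power in the kernel of reduction. -/
theorem exists_pow_mem_J1_of_mem_P00 {π : O}
    (hπ : IsLocalRing.maximalIdeal O = Ideal.span {π})
    (hg : NodalGood (c0.baseChange O) π (Fin 2))
    {K : Type u} [Field K] [Finite K]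
    (X : ∀ i, Comp (c0.baseChange O) (hg.P0 i) (hg.P1 i) K)
    (hne0 : ¬ hg.P0 1 ≤ hg.P0 0) (hne1 : ¬ hg.P1 1 ≤ hg.P1 0)
    (x : PicX c0 O) (hx : x ∈ P00 hg X) :
    ∃ h : ℕ, 0 < h ∧ x ^ h ∈ J1 c0 O := by
  obtain ⟨h, hpos, hh⟩ := exists_pow_red_eq_one_of_res_eq_one c0 hπ hg X hne0 hne1
  have hdeg := (mem_P00_iff hg X x).1 hx
  haveI := (X 0).dom0
  haveI := (X 0).dom1
  haveI := (X 0).nontriv01
  haveI := (X 1).dom0
  haveI := (X 1).dom1
  haveI := (X 1).nontriv01
  obtain ⟨n0, hn0, e0⟩ := PicFin12.deg0_torsion (X 0).chart (X 0).fpl _ (hdeg 0)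
  obtain ⟨n1, hn1, e1⟩ := PicFin12.deg0_torsion (X 1).chart (X 1).fpl _ (hdeg 1)
  have hres : ∀ i, (X i).res (x ^ (n0 * n1)) = 1 := by
    intro i
    fin_cases i
    · show (X 0).res (x ^ (n0 * n1)) = 1
      rw [map_pow, pow_mul, e0, one_pow]
    · show (X 1).res (x ^ (n0 * n1)) = 1
      rw [map_pow, mul_comm, pow_mul, e1, one_pow]
  refine ⟨n0 * n1 * h, Nat.mul_pos (Nat.mul_pos hn0 hn1) hpos, ?_⟩
  show red c0 O (x ^ (n0 * n1 * h)) = 1
  rw [pow_mul]
  exact hh _ hres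

/-- **(TORS), hub form**, with the power in `P00 ⊓ J1` (the subgroup whose image is `J1L`). -/
theorem exists_pow_mem_inf_J1_of_mem_P00 {π : O}
    (hπ : IsLocalRing.maximalIdeal O = Ideal.span {π})
    (hg : NodalGood (c0.baseChange O) π (Fin 2))
    {K : Type u} [Field K] [Finite K]
    (X : ∀ i, Comp (c0.baseChange O) (hg.P0 i) (hg.P1 i) K)
    (hne0 : ¬ hg.P0 1 ≤ hg.P0 0) (hne1 : ¬ hg.P1 1 ≤ hg.P1 0)
    (x : PicX c0 O) (hx : x ∈ P00 hg X) :
    ∃ h : ℕ, 0 < h ∧ x ^ h ∈ P00 hg X ⊓ J1 c0 O := by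
  obtain ⟨h, hpos, hh⟩ := exists_pow_mem_J1_of_mem_P00 c0 hπ hg X hne0 hne1 x hx
  exact ⟨h, hpos, (P00 hg X).pow_mem hx h, hh⟩

/-- **(TORS), `J0L / J1L` form**: `J⁰(L) / J¹(L)` is a torsion group (`htors` of `K3Abs43`), for
components over any finite field `K`. -/
theorem exists_pow_mem_J1L_of_mem_J0L
    {L : Type u} [CommRing L] [Algebra W L] [Algebra O L] [IsScalarTower W O L] {π : O}
    (hπ : IsLocalRing.maximalIdeal O = Ideal.span {π})
    (hg : NodalGood (c0.baseChange O) π (Fin 2))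
    {K : Type u} [Field K] [Finite K]
    (X : ∀ i, Comp (c0.baseChange O) (hg.P0 i) (hg.P1 i) K)
    (hne0 : ¬ hg.P0 1 ≤ hg.P0 0) (hne1 : ¬ hg.P1 1 ≤ hg.P1 0)
    (y : PicX c0 L) (hy : y ∈ J0L c0 O L (P00 hg X)) :
    ∃ h : ℕ, 0 < h ∧ y ^ h ∈ J1L c0 O L (P00 hg X) := by
  obtain ⟨x, hx, rfl⟩ := Subgroup.mem_map.1 hy
  obtain ⟨h, hpos, hh⟩ := exists_pow_mem_inf_J1_of_mem_P00 c0 hπ hg X hne0 hne1 x hx
  refine ⟨h, hpos, ?_⟩
  rw [← map_pow]
  exact Subgroup.mem_map_of_mem _ hh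

end HubForm

end Fermat.Agent.MAZ.PicFinModel22
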