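/-
MAZ / T1B-U, brick U3'-MODEL (row 738) (helper22): THE (TORS) STATEMENT IN CUBE FORM FROM CHART-LEVEL
MODEL INPUTS.

`c : TwoChart κ A0 A1 A01` the special fibre of the nodal model over a FINITE field `κ`;
`cX : TwoChart κ X0 X1 X01`, `cY : TwoChart κ Y0 Y1 Y01` its two components (integral two-chart
curves, finite projective over the line), with compatible ring maps `A_j → X_j`, `A_j → Y_j`
(two commuting cubes), SURJECTIVE ON THE TWO CHARTS.  Chart-level inputs only:

 (iii-0/1) `ker (A_j → X_j) ⊓ ker (A_j → Y_j) = ⊥` for `j = 0, 1` (`PicFinModel22.Nodes`: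
           from `NodalGood.inf0/inf1`);
 (inc)     `ker (A_j → Y_j) ≠ ⊥` for `j = 0, 1` (the component `Y` is not the whole chart).

Outputs:
* `surjective_overlap`        : `A01 → X01` is surjective (from the charts + `cX.ts`, `cX.away0`);
* `finite_nodeRing`           : the node ring `A0 ⧸ (ker ⊔ ker)` is finite (no scalar-tower
                                hypothesis on `κ → A0 → X0`);
* `exists_pow_eq_one_torus`   : the torus kernel is killed by some `h > 0`
                                (helper75's `PicFin75.exists_pow_eq_one_of_bc` with all its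
                                hypotheses discharged);
* `exists_pow_eq_one_of_deg0` : **(TORS), cube form**: a class of `LinePic c` whose restrictions to
                                the two components have degree `0` has finite order
                                (+ helper12's `PicFin12.deg0_torsion` on each component).
-/
import Mathlib
import Fermat.Agent.MAZ.PicFinModel22.Nodes
import Fermat.Agent.MAZ.PicFin75.TorusTorsion
import Fermat.Agent.MAZ.PicFin12.Deg0

set_option autoImplicit false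
set_option linter.unusedSectionVars false
set_option linter.style.haveILetI false

open Polynomial

namespace Fermat.Agent.MAZ.PicFinModel22

open Fermat.Agent.Jac Fermat.Agent.Jac.JGroup85Pic Fermat.Agent.Jac.BaseChange75

universe u

/-! ### Surjectivity on the overlap -/

section Surj

variable {κ A0 A1 A01 X0 X1 X01 : Type u} [CommRing κ] [CommRing A0] [CommRing A1] [CommRing A01]
  [Algebra κ A0] [Algebra κ A1] [Algebra κ A01] [Algebra A0 A01] [Algebra A1 A01]
  [IsScalarTower κ A0 A01] [IsScalarTower κ A1 A01]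
  [CommRing X0] [CommRing X1] [CommRing X01]
  [Algebra κ X0] [Algebra κ X1] [Algebra κ X01] [Algebra X0 X01] [Algebra X1 X01]
  [IsScalarTower κ X0 X01] [IsScalarTower κ X1 X01]
  [Algebra A0 X0] [Algebra A1 X1] [Algebra A01 X01]

/-- A cube of ring maps onto a two-chart ring which is surjective on the two charts is surjective
on the overlap: `X01 = X0[1/t]` and `1/t = s` comes from the chart `1`. -/
theorem surjective_overlap (cX : TwoChart κ X0 X1 X01)
    (hX0 : (algebraMap X0 X01).comp (algebraMap A0 X0) =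
      (algebraMap A01 X01).comp (algebraMap A0 A01))
    (hX1 : (algebraMap X1 X01).comp (algebraMap A1 X1) =
      (algebraMap A01 X01).comp (algebraMap A1 A01))
    (sX0 : Function.Surjective (algebraMap A0 X0)) (sX1 : Function.Surjective (algebraMap A1 X1)) :
    Function.Surjective (algebraMap A01 X01) := by
  haveI := cX.away0
  -- the image contains `X0` and `X1`
  have im0 : ∀ x : X0, ∃ a : A01, algebraMap A01 X01 a = algebraMap X0 X01 x := by
    intro x
    obtain ⟨a, rfl⟩ := sX0 x
    refine ⟨algebraMap A0 A01 a, ?_⟩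
    have := RingHom.congr_fun hX0 a
    simp only [RingHom.comp_apply] at this
    exact this.symm
  have im1 : ∀ x : X1, ∃ a : A01, algebraMap A01 X01 a = algebraMap X1 X01 x := by
    intro x
    obtain ⟨a, rfl⟩ := sX1 x
    refine ⟨algebraMap A1 A01 a, ?_⟩
    have := RingHom.congr_fun hX1 a
    simp only [RingHom.comp_apply] at this
    exact this.symm
  intro z
  obtain ⟨⟨x, ⟨_, n, rfl⟩⟩, hx⟩ := IsLocalization.surj (Submonoid.powers cX.t) z
  have hx' : z * algebraMap X0 X01 (cX.t ^ n) = algebraMap X0 X01 x := hx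
  -- `z = x * s ^ n`
  have hz : z = algebraMap X0 X01 x * algebraMap X1 X01 (cX.s ^ n) := by
    rw [← hx', map_pow, map_pow, mul_assoc, ← mul_pow, cX.ts, one_pow, mul_one]
  obtain ⟨a, ha⟩ := im0 x
  obtain ⟨b, hb⟩ := im1 (cX.s ^ n)
  exact ⟨a * b, by rw [map_mul, ha, hb, hz]⟩

end Surj

/-! ### The node ring is finite (no scalar tower needed) -/

section NodeRing

variable {κ A0 X0 Y0 : Type*} [Field κ] [Finite κ] [CommRing A0] [CommRing X0] [CommRing Y0]
  [Algebra κ X0] [Algebra A0 X0] [Algebra A0 Y0] [IsDomain X0]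

/-- **(ii)**: the node ring `A0 ⧸ (ker (A0 → X0) ⊔ ker (A0 → Y0))` is a finite set as soon as the
component chart `X0` is a domain finite over `κ[t]` (`κ` finite), `A0 → X0` is surjective, the two
components have no common part on the chart and the component `Y` is not the whole chart. -/
theorem finite_nodeRing (tX : X0) (hfin : Module.Finite κ[X] (Module.AEval κ X0 tX))
    (sX : Function.Surjective (algebraMap A0 X0))
    (h0 : RingHom.ker (algebraMap A0 X0) ⊓ RingHom.ker (algebraMap A0 Y0) = ⊥)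
    (hY : RingHom.ker (algebraMap A0 Y0) ≠ ⊥) :
    Finite (A0 ⧸ (RingHom.ker (algebraMap A0 X0) ⊔ RingHom.ker (algebraMap A0 Y0))) := by
  obtain ⟨e, heY, he0⟩ := Submodule.exists_mem_ne_zero_of_ne_bot hY
  have heX : algebraMap A0 X0 e ≠ 0 := by
    intro h
    apply he0
    have : e ∈ RingHom.ker (algebraMap A0 X0) ⊓ RingHom.ker (algebraMap A0 Y0) := ⟨h, heY⟩
    rw [h0] at this
    exact this
  set J : Ideal A0 := RingHom.ker (algebraMap A0 X0) ⊔ RingHom.ker (algebraMap A0 Y0) with hJ
  haveI hQ : Module.Finite κ (X0 ⧸ Submodule.span X0 {algebraMap A0 X0 e}) :=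
    Fermat.Agent.Jac.DegAdd79Alg.finite_quotient_span_singleton (K := κ) (R := X0) (N := X0)
      tX hfin _ heX
  haveI : Finite (X0 ⧸ Submodule.span X0 {algebraMap A0 X0 e}) := Module.finite_of_finite κ
  have hle : Submodule.span X0 {algebraMap A0 X0 e} ≤
      (J.map (algebraMap A0 X0)).restrictScalars X0 := by
    rw [Submodule.span_le, Set.singleton_subset_iff]
    exact Ideal.mem_map_of_mem _ (Ideal.mem_sup_right heY)
  have hcomap : (J.map (algebraMap A0 X0)).comap (algebraMap A0 X0) = J := by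
    rw [Ideal.comap_map_of_surjective _ sX]
    refine le_antisymm (sup_le le_rfl ?_) le_sup_left
    intro x hx
    exact Ideal.mem_sup_left hx
  let ψ : (X0 ⧸ Submodule.span X0 {algebraMap A0 X0 e}) →ₗ[X0] (X0 ⧸ J.map (algebraMap A0 X0)) :=
    (Submodule.span X0 {algebraMap A0 X0 e}).mapQ ((J.map (algebraMap A0 X0)).restrictScalars X0)
      LinearMap.id hle
  have hψ : Function.Surjective ψ := by
    intro z
    obtain ⟨y, rfl⟩ := Ideal.Quotient.mk_surjective z
    exact ⟨Submodule.Quotient.mk y, rfl⟩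
  haveI : Finite (X0 ⧸ J.map (algebraMap A0 X0)) := Finite.of_surjective ψ hψ
  let θ : (A0 ⧸ J) →+* (X0 ⧸ J.map (algebraMap A0 X0)) :=
    Ideal.quotientMap (J.map (algebraMap A0 X0)) (algebraMap A0 X0) (by
      intro x hx
      exact Ideal.mem_map_of_mem _ hx)
  have hθ : Function.Injective θ := by
    rw [injective_iff_map_eq_zero]
    intro z hz
    obtain ⟨x, rfl⟩ := Ideal.Quotient.mk_surjective z
    have h1 : Ideal.Quotient.mk (J.map (algebraMap A0 X0)) (algebraMap A0 X0 x) = 0 := hz
    rw [Ideal.Quotient.eq_zero_iff_mem] at h1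
    have h2 : x ∈ (J.map (algebraMap A0 X0)).comap (algebraMap A0 X0) := h1
    rw [hcomap] at h2
    exact Ideal.Quotient.eq_zero_iff_mem.2 h2
  exact Finite.of_injective θ hθ

end NodeRing

/-! ### The torus kernel and (TORS) in cube form -/

section Main

variable {κ A0 A1 A01 : Type u} [Field κ] [Finite κ] [CommRing A0] [CommRing A1] [CommRing A01]
  [Algebra κ A0] [Algebra κ A1] [Algebra κ A01] [Algebra A0 A01] [Algebra A1 A01]
  [IsScalarTower κ A0 A01] [IsScalarTower κ A1 A01]
  -- the component `X`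
  {X0 X1 X01 : Type u} [CommRing X0] [CommRing X1] [CommRing X01]
  [Algebra κ X0] [Algebra κ X1] [Algebra κ X01] [Algebra X0 X01] [Algebra X1 X01]
  [IsScalarTower κ X0 X01] [IsScalarTower κ X1 X01]
  [Algebra A0 X0] [Algebra A1 X1] [Algebra A01 X01]
  [IsDomain X0] [IsDomain X1] [Nontrivial X01]
  -- the component `Y`
  {Y0 Y1 Y01 : Type u} [CommRing Y0] [CommRing Y1] [CommRing Y01]
  [Algebra κ Y0] [Algebra κ Y1] [Algebra κ Y01] [Algebra Y0 Y01] [Algebra Y1 Y01]
  [IsScalarTower κ Y0 Y01] [IsScalarTower κ Y1 Y01]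
  [Algebra A0 Y0] [Algebra A1 Y1] [Algebra A01 Y01]
  [IsDomain Y0] [IsDomain Y1] [Nontrivial Y01]
  (c : TwoChart κ A0 A1 A01) (cX : TwoChart κ X0 X1 X01) (cY : TwoChart κ Y0 Y1 Y01)
  (hcX : cX.FiniteProjOverLine) (hcY : cY.FiniteProjOverLine)
  (hX0 : (algebraMap X0 X01).comp (algebraMap A0 X0) =
    (algebraMap A01 X01).comp (algebraMap A0 A01))
  (hX1 : (algebraMap X1 X01).comp (algebraMap A1 X1) =
    (algebraMap A01 X01).comp (algebraMap A1 A01))
  (hY0 : (algebraMap Y0 Y01).comp (algebraMap A0 Y0) =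
    (algebraMap A01 Y01).comp (algebraMap A0 A01))
  (hY1 : (algebraMap Y1 Y01).comp (algebraMap A1 Y1) =
    (algebraMap A01 Y01).comp (algebraMap A1 A01))
  (sX0 : Function.Surjective (algebraMap A0 X0)) (sX1 : Function.Surjective (algebraMap A1 X1))
  (sY0 : Function.Surjective (algebraMap A0 Y0)) (sY1 : Function.Surjective (algebraMap A1 Y1))
  (h0 : RingHom.ker (algebraMap A0 X0) ⊓ RingHom.ker (algebraMap A0 Y0) = ⊥)
  (h1 : RingHom.ker (algebraMap A1 X1) ⊓ RingHom.ker (algebraMap A1 Y1) = ⊥)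
  (hne0 : RingHom.ker (algebraMap A0 Y0) ≠ ⊥) (hne1 : RingHom.ker (algebraMap A1 Y1) ≠ ⊥)

include hcX hX1 sX0 sX1 sY0 sY1 h0 h1 hne0 hne1 in
/-- **The torus kernel is killed by some `h > 0`**, from chart-level inputs only. -/
theorem exists_pow_eq_one_torus :
    ∃ h : ℕ, 0 < h ∧ ∀ x : LinePic c, LinePic.bc hX0 hX1 c cX x = 1 →
      LinePic.bc hY0 hY1 c cY x = 1 → x ^ h = 1 := by
  haveI := c.away0
  haveI := cX.away0
  haveI := cY.away0
  have sX01 := surjective_overlap cX hX0 hX1 sX0 sX1
  have sY01 := surjective_overlap cY hY0 hY1 sY0 sY1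
  have h01 : RingHom.ker (algebraMap A01 X01) ⊓ RingHom.ker (algebraMap A01 Y01) = ⊥ :=
    ker_inf_ker_eq_bot_overlap c.t hX0 hY0 (injective_algebraMap_of_away cX.t)
      (injective_algebraMap_of_away cY.t) h0
  haveI f0 : Finite (A0 ⧸ (RingHom.ker (algebraMap A0 X0) ⊔ RingHom.ker (algebraMap A0 Y0))) :=
    finite_nodeRing (κ := κ) cX.t hcX.fin0 sX0 h0 hne0
  haveI f1 : Finite (A1 ⧸ (RingHom.ker (algebraMap A1 X1) ⊔ RingHom.ker (algebraMap A1 Y1))) :=
    finite_nodeRing (κ := κ) cX.s hcX.fin1 sX1 h1 hne1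
  exact Fermat.Agent.MAZ.PicFin75.exists_pow_eq_one_of_bc c cX cY hX0 hX1 hY0 hY1 sX0 sX1 sX01
    sY0 sY1 sY01 h0 h1 h01

include hX1 sX0 sX1 sY0 sY1 h0 h1 hne0 hne1 in
/-- **(TORS), cube form.**  A class of lines on the special fibre (over a finite field) whose
restrictions to the two components have degree `0` has finite order. -/
theorem exists_pow_eq_one_of_deg0 (x : LinePic c)
    (hxX : LinePic.bc hX0 hX1 c cX x ∈ Fermat.Agent.T1B.Bal60.deg0 cX hcX)
    (hxY : LinePic.bc hY0 hY1 c cY x ∈ Fermat.Agent.T1B.Bal60.deg0 cY hcY) :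
    ∃ h : ℕ, 0 < h ∧ x ^ h = 1 := by
  obtain ⟨a, ha, haX⟩ := Fermat.Agent.MAZ.PicFin12.deg0_torsion cX hcX _ hxX
  obtain ⟨b, hb, hbY⟩ := Fermat.Agent.MAZ.PicFin12.deg0_torsion cY hcY _ hxY
  obtain ⟨h, hh, hker⟩ := exists_pow_eq_one_torus c cX cY hcX hX0 hX1 hY0 hY1 sX0 sX1 sY0 sY1
    h0 h1 hne0 hne1
  refine ⟨a * b * h, Nat.mul_pos (Nat.mul_pos ha hb) hh, ?_⟩
  have e1 : LinePic.bc hX0 hX1 c cX (x ^ (a * b)) = 1 := by
    rw [map_pow, pow_mul, haX, one_pow]
  have e2 : LinePic.bc hY0 hY1 c cY (x ^ (a * b)) = 1 := by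
    rw [map_pow, mul_comm, pow_mul, hbY, one_pow]
  rw [pow_mul]
  exact hker _ e1 e2

end Main

end Fermat.Agent.MAZ.PicFinModel22
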